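import Mathlib

/-!
# S15 / DESC piece D3a (helper62): constituents of an "Eisenstein" Galois module

Abstract, Mathlib-only.  Let `r` be a prime, `V` a finite `𝔽_r[G]`-module and `χ : G → 𝔽_r^×` a
character such that for every `g ∈ G` the operator `(g - 1)(g - χ(g))` is nilpotent on `V`.
(For `V = J₀(p)[r]_𝔓`, `𝔓 = (I, r)` an Eisenstein prime, `χ` the mod `r` cyclotomic character:
Eichler–Shimura gives `F² - T_ℓ F + ℓ = 0` for a Frobenius `F` at `ℓ`, `T_ℓ - 1 - ℓ` is nilpotent
on `V`, and by Chebotarev every `g` is a Frobenius.)  Then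

* `exists_eigenline_of_nilpotent` : if `V ≠ 0` there is `v ≠ 0` on which `G` acts trivially, or on
  which `G` acts through `χ`;
* `exists_eigenline` : the same when `(g - 1)(g - χ(g)) = 0` (elementwise form);
* `exists_flag` : `V` has a `G`-stable full flag `0 = F 0 < F 1 < ... < F n = V`,
  `F (i+1) = F i + 𝔽_r u_i`, and `G` acts on `u_i` modulo `F i` trivially (`ε i = false`) or
  through `χ` (`ε i = true`): all Jordan–Hölder constituents are `ℤ/r` or `μ_r`.
-/

set_option autoImplicit false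

namespace Fermat.Agent.S15.H62

open Module

section Fixed

variable {r : ℕ} [Fact r.Prime] {G V : Type*} [Group G] [AddCommGroup V] [Module (ZMod r) V]

/-- The endomorphism ring of a nonzero `𝔽_r`-vector space has characteristic `r`. -/
theorem charP_end [Nontrivial V] : CharP (Module.End (ZMod r) V) r :=
  charP_of_injective_algebraMap (algebraMap (ZMod r) (Module.End (ZMod r) V)).injective r

/-- A unipotent endomorphism of an `𝔽_r`-vector space has `r`-power order. -/
theorem exists_pow_char_pow_eq_one [Nontrivial V] (u : Module.End (ZMod r) V)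
    (hu : IsNilpotent (u - 1)) : ∃ k : ℕ, u ^ r ^ k = 1 := by
  have := charP_end (r := r) (V := V)
  obtain ⟨N, hN⟩ := hu
  refine ⟨N, ?_⟩
  have hlt : N < r ^ N := Nat.lt_pow_self (Fact.out : r.Prime).one_lt
  have h0 : (u - 1) ^ r ^ N = 0 := pow_eq_zero_of_le hlt.le hN
  have hc : Commute (u - 1) (1 : Module.End (ZMod r) V) := Commute.one_right _
  have := add_pow_char_pow_of_commute r N hc
  rw [sub_add_cancel, h0, one_pow, zero_add] at this
  exact this

/-- The characteristic divides the cardinality of a nontrivial finite `𝔽_r`-vector space. -/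
theorem char_dvd_natCard [Finite V] [Nontrivial V] : r ∣ Nat.card V := by
  obtain ⟨v, hv⟩ := exists_ne (0 : V)
  have hr : r • v = 0 := by
    rw [← Nat.cast_smul_eq_nsmul (ZMod r), ZMod.natCast_self, zero_smul]
  have h1 : addOrderOf v ∣ r := addOrderOf_dvd_of_nsmul_eq_zero hr
  have h2 : addOrderOf v ≠ 1 := by
    intro h
    exact hv (AddMonoid.addOrderOf_eq_one_iff.mp h)
  have h3 : addOrderOf v = r := ((Nat.dvd_prime (Fact.out : r.Prime)).mp h1).resolve_left h2
  rw [← h3]
  exact addOrderOf_dvd_natCard v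

/-- **Kolchin for finite `𝔽_r`-vector spaces.** A group acting on a nonzero finite
`𝔽_r`-vector space by unipotent operators has a nonzero fixed vector. -/
theorem exists_fixed_of_unipotent [Finite V] [Nontrivial V] (ρ : Representation (ZMod r) G V)
    (H : Subgroup G) (hH : ∀ h ∈ H, IsNilpotent (ρ h - 1)) :
    ∃ v : V, v ≠ 0 ∧ ∀ h ∈ H, ρ h v = v := by
  classical
  let φ : G →* (Module.End (ZMod r) V)ˣ := MonoidHom.toHomUnits ρ
  have hφ : ∀ g : G, ((φ g : (Module.End (ZMod r) V)ˣ) : Module.End (ZMod r) V) = ρ g :=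
    fun g => rfl
  let P : Subgroup (Module.End (ZMod r) V)ˣ := H.map φ
  have hP : IsPGroup r P := by
    rintro ⟨u, hu⟩
    obtain ⟨h, hh, rfl⟩ := hu
    obtain ⟨k, hk⟩ := exists_pow_char_pow_eq_one (ρ h) (hH h hh)
    refine ⟨k, ?_⟩
    apply Subtype.ext
    apply Units.ext
    simp only [SubgroupClass.coe_pow, Units.val_pow_eq_pow_val, hφ, OneMemClass.coe_one,
      Units.val_one]
    exact hk
  have h0 : (0 : V) ∈ MulAction.fixedPoints P V := by
    intro u
    exact smul_zero u
  obtain ⟨b, hb, hb0⟩ :=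
    hP.exists_fixed_point_of_prime_dvd_card_of_fixed_point V char_dvd_natCard h0
  refine ⟨b, fun h => hb0 h.symm, fun h hh => ?_⟩
  have := hb ⟨φ h, h, hh, rfl⟩
  exact this

/-- For a locally nilpotent operator `B` and `x ≠ 0` some `B ^ i x` is a nonzero element of the
kernel of `B`. -/
theorem exists_pow_apply_ne_zero_of_nilpotent (B : Module.End (ZMod r) V) {x : V} (hx : x ≠ 0)
    {N : ℕ} (hN : (B ^ N) x = 0) : ∃ i : ℕ, (B ^ i) x ≠ 0 ∧ B ((B ^ i) x) = 0 := by
  classical
  have hex : ∃ n, (B ^ n) x = 0 := ⟨N, hN⟩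
  have hpos : Nat.find hex ≠ 0 := by
    intro h0
    have := Nat.find_spec hex
    rw [h0, pow_zero, Module.End.one_apply] at this
    exact hx this
  obtain ⟨i, hi⟩ := Nat.exists_eq_succ_of_ne_zero hpos
  refine ⟨i, ?_, ?_⟩
  · exact Nat.find_min hex (by omega)
  · have := Nat.find_spec hex
    rw [hi, pow_succ', Module.End.mul_apply] at this
    exact this

end Fixed

section Eigenline

variable {r : ℕ} [Fact r.Prime] {G V : Type*} [Group G] [AddCommGroup V] [Module (ZMod r) V]

/-- The subgroup of `G` acting on the vector `u` through the character `ψ`. -/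
def actsThrough (ρ : Representation (ZMod r) G V) (ψ : G →* (ZMod r)ˣ) (u : V) : Subgroup G where
  carrier := {g | ρ g u = ((ψ g : (ZMod r)ˣ) : ZMod r) • u}
  one_mem' := by simp
  mul_mem' := by
    intro a b ha hb
    change ρ a u = ((ψ a : (ZMod r)ˣ) : ZMod r) • u at ha
    change ρ b u = ((ψ b : (ZMod r)ˣ) : ZMod r) • u at hb
    change ρ (a * b) u = ((ψ (a * b) : (ZMod r)ˣ) : ZMod r) • u
    rw [map_mul, Module.End.mul_apply, hb, map_smul, ha, map_mul, Units.val_mul, mul_smul,
      smul_comm]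
  inv_mem' := by
    intro a ha
    change ρ a u = ((ψ a : (ZMod r)ˣ) : ZMod r) • u at ha
    change ρ a⁻¹ u = ((ψ a⁻¹ : (ZMod r)ˣ) : ZMod r) • u
    have h1 : ρ a⁻¹ (ρ a u) = u := by
      rw [← Module.End.mul_apply, ← map_mul, inv_mul_cancel, map_one, Module.End.one_apply]
    rw [ha, map_smul] at h1
    have h2 : ((ψ a⁻¹ : (ZMod r)ˣ) : ZMod r) * ((ψ a : (ZMod r)ˣ) : ZMod r) = 1 := by
      rw [← Units.val_mul, ← map_mul, inv_mul_cancel, map_one, Units.val_one]
    calc ρ a⁻¹ u = (((ψ a⁻¹ : (ZMod r)ˣ) : ZMod r) * ((ψ a : (ZMod r)ˣ) : ZMod r)) • ρ a⁻¹ u := by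
          rw [h2, one_smul]
      _ = ((ψ a⁻¹ : (ZMod r)ˣ) : ZMod r) • u := by rw [mul_smul, h1]

theorem mem_actsThrough {ρ : Representation (ZMod r) G V} {ψ : G →* (ZMod r)ˣ} {u : V} {g : G} :
    g ∈ actsThrough ρ ψ u ↔ ρ g u = ((ψ g : (ZMod r)ˣ) : ZMod r) • u := Iff.rfl

/-- The "Eisenstein operator" `(g - 1)(g - χ(g))` of `g`. -/
def eisOp (ρ : Representation (ZMod r) G V) (χ : G →* (ZMod r)ˣ) (g : G) :
    Module.End (ZMod r) V :=
  (ρ g - 1) * (ρ g - algebraMap (ZMod r) (Module.End (ZMod r) V) ((χ g : (ZMod r)ˣ) : ZMod r))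

theorem eisOp_apply (ρ : Representation (ZMod r) G V) (χ : G →* (ZMod r)ˣ) (g : G) (v : V) :
    eisOp ρ χ g v
      = ρ g (ρ g v) - ρ g v - ((χ g : (ZMod r)ˣ) : ZMod r) • (ρ g v - v) := by
  simp only [eisOp, Module.End.mul_apply, LinearMap.sub_apply, Module.End.one_apply, map_sub,
    Module.algebraMap_end_apply, map_smul, smul_sub]

/-- **Constituents lemma (D3a), nilpotent form.**  If for every `g` the operator
`(g - 1)(g - χ(g))` is nilpotent on the nonzero finite `𝔽_r[G]`-module `V`, then `V` contains a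
nonzero vector on which `G` acts trivially, or one on which `G` acts through `χ`. -/
theorem exists_eigenline_of_nilpotent [Finite V] [Nontrivial V]
    (ρ : Representation (ZMod r) G V) (χ : G →* (ZMod r)ˣ)
    (h : ∀ g : G, IsNilpotent (eisOp ρ χ g)) :
    ∃ v : V, v ≠ 0 ∧
      ((∀ g, ρ g v = v) ∨ (∀ g, ρ g v = ((χ g : (ZMod r)ˣ) : ZMod r) • v)) := by
  classical
  -- Step 1: a nonzero vector fixed by `H = ker χ`.
  have hH : ∀ g ∈ χ.ker, IsNilpotent (ρ g - 1) := by
    intro g hg
    have hg1 : χ g = 1 := hg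
    obtain ⟨N, hN⟩ := h g
    rw [eisOp, hg1, Units.val_one, map_one, ← pow_two, ← pow_mul] at hN
    exact ⟨2 * N, hN⟩
  obtain ⟨v, hv0, hv⟩ := exists_fixed_of_unipotent ρ χ.ker hH
  -- the `H`-fixed vectors are stable under `G`
  have hstab : ∀ (g : G) (w : V), (∀ x ∈ χ.ker, ρ x w = w) → ∀ x ∈ χ.ker, ρ x (ρ g w) = ρ g w := by
    intro g w hw x hx
    have hx' : g⁻¹ * x * g ∈ χ.ker := by
      have : χ.ker.Normal := inferInstance
      have := this.conj_mem x hx g⁻¹
      simpa using this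
    have := hw _ hx'
    calc ρ x (ρ g w) = ρ g (ρ (g⁻¹ * x * g) w) := by
          rw [← Module.End.mul_apply, ← Module.End.mul_apply, ← map_mul, ← map_mul]
          congr 2
          group
      _ = ρ g w := by rw [this]
  -- Step 2: a generator of the image of `χ`.
  obtain ⟨⟨y, g₀, rfl⟩, hy⟩ := (IsCyclic.exists_generator (α := χ.range))
  have hgen : ∀ g : G, ∃ k : ℤ, χ g = χ g₀ ^ k := by
    intro g
    have := hy ⟨χ g, g, rfl⟩
    obtain ⟨k, hk⟩ := Subgroup.mem_zpowers_iff.mp this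
    refine ⟨k, ?_⟩
    have := congrArg Subtype.val hk
    simpa using this.symm
  -- Step 3: from an eigenvector of `g₀` fixed by `H` to a `G`-eigenvector.
  have key : ∀ (ψ : G →* (ZMod r)ˣ) (u : V), χ.ker ≤ ψ.ker → (∀ x ∈ χ.ker, ρ x u = u) →
      ρ g₀ u = ((ψ g₀ : (ZMod r)ˣ) : ZMod r) • u →
      ∀ g, ρ g u = ((ψ g : (ZMod r)ˣ) : ZMod r) • u := by
    intro ψ u hker hu hg₀ g
    obtain ⟨k, hk⟩ := hgen g
    have h1 : g₀ ∈ actsThrough ρ ψ u := hg₀
    have h2 : g * (g₀ ^ k)⁻¹ ∈ χ.ker := by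
      rw [MonoidHom.mem_ker, map_mul, map_inv, map_zpow, hk, mul_inv_cancel]
    have h3 : g * (g₀ ^ k)⁻¹ ∈ actsThrough ρ ψ u := by
      rw [mem_actsThrough, hu _ h2]
      have : ψ (g * (g₀ ^ k)⁻¹) = 1 := hker h2
      rw [this, Units.val_one, one_smul]
    have h4 : g = g * (g₀ ^ k)⁻¹ * g₀ ^ k := by group
    rw [h4]
    exact (actsThrough ρ ψ u).mul_mem h3 ((actsThrough ρ ψ u).zpow_mem h1 k)
  -- Step 4: an eigenvector of `g₀` among the `H`-fixed vectors.
  set c : ZMod r := ((χ g₀ : (ZMod r)ˣ) : ZMod r) with hc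
  set B₁ : Module.End (ZMod r) V := ρ g₀ - 1 with hB₁
  set Bc : Module.End (ZMod r) V := ρ g₀ - algebraMap (ZMod r) (Module.End (ZMod r) V) c with hBc
  have hB₁fix : ∀ w : V, (∀ x ∈ χ.ker, ρ x w = w) → ∀ x ∈ χ.ker, ρ x (B₁ w) = B₁ w := by
    intro w hw x hx
    rw [hB₁, LinearMap.sub_apply, Module.End.one_apply, map_sub, hstab g₀ w hw x hx, hw x hx]
  have hBcfix : ∀ w : V, (∀ x ∈ χ.ker, ρ x w = w) → ∀ x ∈ χ.ker, ρ x (Bc w) = Bc w := by
    intro w hw x hx
    rw [hBc, LinearMap.sub_apply, Module.algebraMap_end_apply, map_sub, map_smul,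
      hstab g₀ w hw x hx, hw x hx]
  have hpowfix : ∀ (B : Module.End (ZMod r) V),
      (∀ w : V, (∀ x ∈ χ.ker, ρ x w = w) → ∀ x ∈ χ.ker, ρ x (B w) = B w) →
      ∀ (i : ℕ) (w : V), (∀ x ∈ χ.ker, ρ x w = w) → ∀ x ∈ χ.ker, ρ x ((B ^ i) w) = (B ^ i) w := by
    intro B hB i
    induction i with
    | zero => intro w hw x hx; simpa using hw x hx
    | succ i ih =>
      intro w hw x hx
      rw [pow_succ', Module.End.mul_apply]
      exact hB _ (ih w hw) x hx
  have hcomm : Commute B₁ Bc := by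
    rw [hB₁, hBc]
    refine Commute.sub_left ?_ ?_
    · exact Commute.sub_right (Commute.refl _) (Algebra.commutes' _ _).symm
    · exact Commute.one_left _
  obtain ⟨N, hN⟩ := h g₀
  rw [eisOp, ← hc, ← hB₁, ← hBc, hcomm.mul_pow] at hN
  by_cases hcase : (Bc ^ N) v = 0
  · -- an eigenvector for `χ`
    obtain ⟨i, hi0, hi⟩ := exists_pow_apply_ne_zero_of_nilpotent Bc hv0 hcase
    refine ⟨(Bc ^ i) v, hi0, Or.inr ?_⟩
    refine key χ _ le_rfl (hpowfix Bc hBcfix i v hv) ?_
    rw [hBc, LinearMap.sub_apply, Module.algebraMap_end_apply, sub_eq_zero] at hi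
    exact hi
  · -- an eigenvector for the trivial character
    have hN' : (B₁ ^ N) ((Bc ^ N) v) = 0 := by
      rw [← Module.End.mul_apply, hN, LinearMap.zero_apply]
    obtain ⟨i, hi0, hi⟩ := exists_pow_apply_ne_zero_of_nilpotent B₁ hcase hN'
    refine ⟨(B₁ ^ i) ((Bc ^ N) v), hi0, Or.inl fun g => ?_⟩
    have hfixed := hpowfix B₁ hB₁fix i _ (hpowfix Bc hBcfix N v hv)
    rw [hB₁, LinearMap.sub_apply, Module.End.one_apply, sub_eq_zero] at hi
    have := key 1 _ (fun x _ => by simp) hfixed (by simpa using hi) g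
    simpa using this

/-- **Constituents lemma (D3a), elementwise form.** -/
theorem exists_eigenline [Finite V] [Nontrivial V] (ρ : Representation (ZMod r) G V)
    (χ : G →* (ZMod r)ˣ)
    (h : ∀ (g : G) (v : V), ρ g (ρ g v) - ρ g v - ((χ g : (ZMod r)ˣ) : ZMod r) • (ρ g v - v) = 0) :
    ∃ v : V, v ≠ 0 ∧
      ((∀ g, ρ g v = v) ∨ (∀ g, ρ g v = ((χ g : (ZMod r)ˣ) : ZMod r) • v)) := by
  refine exists_eigenline_of_nilpotent ρ χ fun g => ⟨1, ?_⟩
  ext v
  rw [pow_one, eisOp_apply, h g v, LinearMap.zero_apply]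

end Eigenline

section Flag

variable {r : ℕ} [Fact r.Prime] {G V : Type*} [Group G] [AddCommGroup V] [Module (ZMod r) V]

/-- The representation induced on the quotient by a stable submodule. -/
def quotRep (ρ : Representation (ZMod r) G V) (L : Submodule (ZMod r) V)
    (hL : ∀ g, L ≤ L.comap (ρ g)) : Representation (ZMod r) G (V ⧸ L) where
  toFun g := L.mapQ L (ρ g) (hL g)
  map_one' := by
    refine LinearMap.ext fun x => ?_
    obtain ⟨v, rfl⟩ := L.mkQ_surjective x
    simp
  map_mul' a b := by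
    refine LinearMap.ext fun x => ?_
    obtain ⟨v, rfl⟩ := L.mkQ_surjective x
    simp

@[simp]
theorem quotRep_mk (ρ : Representation (ZMod r) G V) (L : Submodule (ZMod r) V)
    (hL : ∀ g, L ≤ L.comap (ρ g)) (g : G) (v : V) :
    quotRep ρ L hL g (Submodule.Quotient.mk v) = Submodule.Quotient.mk (ρ g v) := rfl

theorem eisOp_quotRep_mk (ρ : Representation (ZMod r) G V) (χ : G →* (ZMod r)ˣ)
    (L : Submodule (ZMod r) V) (hL : ∀ g, L ≤ L.comap (ρ g)) (g : G) (v : V) :
    eisOp (quotRep ρ L hL) χ g (Submodule.Quotient.mk v)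
      = Submodule.Quotient.mk (eisOp ρ χ g v) := by
  rw [eisOp_apply, eisOp_apply]
  simp only [quotRep_mk, ← Submodule.Quotient.mk_sub, ← Submodule.Quotient.mk_smul]

theorem eisOp_quotRep_pow_mk (ρ : Representation (ZMod r) G V) (χ : G →* (ZMod r)ˣ)
    (L : Submodule (ZMod r) V) (hL : ∀ g, L ≤ L.comap (ρ g)) (g : G) (N : ℕ) (v : V) :
    (eisOp (quotRep ρ L hL) χ g ^ N) (Submodule.Quotient.mk v)
      = Submodule.Quotient.mk ((eisOp ρ χ g ^ N) v) := by
  induction N generalizing v with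
  | zero => simp
  | succ N ih =>
    rw [pow_succ, Module.End.mul_apply, eisOp_quotRep_mk, ih, pow_succ (eisOp ρ χ g),
      Module.End.mul_apply]

theorem isNilpotent_eisOp_quotRep (ρ : Representation (ZMod r) G V) (χ : G →* (ZMod r)ˣ)
    (L : Submodule (ZMod r) V) (hL : ∀ g, L ≤ L.comap (ρ g)) (g : G)
    (h : IsNilpotent (eisOp ρ χ g)) : IsNilpotent (eisOp (quotRep ρ L hL) χ g) := by
  obtain ⟨N, hN⟩ := h
  refine ⟨N, LinearMap.ext fun x => ?_⟩
  obtain ⟨v, rfl⟩ := L.mkQ_surjective x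
  change (eisOp (quotRep ρ L hL) χ g ^ N) (Submodule.Quotient.mk v) = 0
  rw [eisOp_quotRep_pow_mk, hN, LinearMap.zero_apply, Submodule.Quotient.mk_zero]

/-- A full flag from `L` to `⊤` with one-dimensional steps of type `𝟙` (`ε i = false`) or `χ`
(`ε i = true`). -/
def HasFlagFrom (ρ : Representation (ZMod r) G V) (χ : G →* (ZMod r)ˣ)
    (L : Submodule (ZMod r) V) : Prop :=
  ∃ (n : ℕ) (F : ℕ → Submodule (ZMod r) V) (u : ℕ → V) (ε : ℕ → Bool),
    F 0 = L ∧ F n = ⊤ ∧
    (∀ i < n, F (i + 1) = F i ⊔ Submodule.span (ZMod r) {u i}) ∧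
    (∀ i < n, u i ∉ F i) ∧
    (∀ i < n, ∀ g, ρ g (u i) - (if ε i then ((χ g : (ZMod r)ˣ) : ZMod r) else 1) • u i ∈ F i)

/-- In a flag all terms are stable under `G` (if the first one is). -/
theorem HasFlagFrom.stable_step (ρ : Representation (ZMod r) G V) {L : Submodule (ZMod r) V}
    (hL : ∀ g, L ≤ L.comap (ρ g)) {u : V} {e : G → ZMod r} (hu : ∀ g, ρ g u - e g • u ∈ L) :
    ∀ g, L ⊔ Submodule.span (ZMod r) {u} ≤ (L ⊔ Submodule.span (ZMod r) {u}).comap (ρ g) := by
  intro g w hw
  rw [Submodule.mem_comap]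
  obtain ⟨l, hl, s, hs, rfl⟩ := Submodule.mem_sup.mp hw
  obtain ⟨a, rfl⟩ := Submodule.mem_span_singleton.mp hs
  rw [map_add, map_smul]
  have h1 : ρ g l ∈ L := hL g hl
  have h2 : ρ g u = (ρ g u - e g • u) + e g • u := by abel
  rw [h2, smul_add]
  refine Submodule.add_mem _ (Submodule.mem_sup_left h1) (Submodule.add_mem _ ?_ ?_)
  · exact Submodule.mem_sup_left (L.smul_mem a (hu g))
  · exact Submodule.mem_sup_right
      (Submodule.smul_mem _ _ (Submodule.smul_mem _ _ (Submodule.mem_span_singleton_self u)))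

theorem hasFlagFrom_of_stable [Finite V] (ρ : Representation (ZMod r) G V) (χ : G →* (ZMod r)ˣ)
    (h : ∀ g : G, IsNilpotent (eisOp ρ χ g)) (L : Submodule (ZMod r) V)
    (hL : ∀ g, L ≤ L.comap (ρ g)) : HasFlagFrom ρ χ L := by
  classical
  have : WellFoundedGT (Submodule (ZMod r) V) := inferInstance
  induction L using WellFoundedGT.induction with
  | ind L ih =>
    by_cases htop : L = ⊤
    · subst htop
      exact ⟨0, fun _ => ⊤, fun _ => 0, fun _ => false, rfl, rfl, by simp, by simp, by simp⟩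
    · have : Nontrivial (V ⧸ L) := Submodule.Quotient.nontrivial_iff.mpr htop
      have : Finite (V ⧸ L) := Finite.of_surjective _ L.mkQ_surjective
      obtain ⟨x, hx0, hx⟩ := exists_eigenline_of_nilpotent (quotRep ρ L hL) χ
        (fun g => isNilpotent_eisOp_quotRep ρ χ L hL g (h g))
      obtain ⟨v, rfl⟩ := L.mkQ_surjective x
      have hvL : v ∉ L := fun hv => hx0 ((Submodule.Quotient.mk_eq_zero L).mpr hv)
      -- the type of the new step
      obtain ⟨e, he⟩ : ∃ e : Bool, ∀ g,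
          ρ g v - (if e then ((χ g : (ZMod r)ˣ) : ZMod r) else 1) • v ∈ L := by
        rcases hx with hx | hx
        · refine ⟨false, fun g => ?_⟩
          have := hx g
          rw [Submodule.mkQ_apply, quotRep_mk] at this
          rw [← Submodule.Quotient.mk_eq_zero L, Submodule.Quotient.mk_sub, this]
          simp
        · refine ⟨true, fun g => ?_⟩
          have := hx g
          rw [Submodule.mkQ_apply, quotRep_mk] at this
          rw [← Submodule.Quotient.mk_eq_zero L, Submodule.Quotient.mk_sub, this]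
          simp
      set L' := L ⊔ Submodule.span (ZMod r) {v} with hL'
      have hlt : L < L' := by
        refine lt_of_le_of_ne le_sup_left fun heq => hvL ?_
        rw [heq]
        exact Submodule.mem_sup_right (Submodule.mem_span_singleton_self v)
      have hL'stab : ∀ g, L' ≤ L'.comap (ρ g) := HasFlagFrom.stable_step ρ hL he
      obtain ⟨n, F, u, ε, hF0, hFn, hstep, hnot, hact⟩ := ih L' hlt hL'stab
      refine ⟨n + 1, fun i => if i = 0 then L else F (i - 1), fun i => if i = 0 then v else u (i - 1),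
        fun i => if i = 0 then e else ε (i - 1), by simp, by simpa using hFn, ?_, ?_, ?_⟩
      · intro i hi
        rcases Nat.eq_zero_or_pos i with rfl | hpos
        · simp [hF0, hL']
        · obtain ⟨j, rfl⟩ := Nat.exists_eq_succ_of_ne_zero hpos.ne'
          simpa using hstep j (by omega)
      · intro i hi
        rcases Nat.eq_zero_or_pos i with rfl | hpos
        · simpa using hvL
        · obtain ⟨j, rfl⟩ := Nat.exists_eq_succ_of_ne_zero hpos.ne'
          simpa using hnot j (by omega)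
      · intro i hi g
        rcases Nat.eq_zero_or_pos i with rfl | hpos
        · simpa using he g
        · obtain ⟨j, rfl⟩ := Nat.exists_eq_succ_of_ne_zero hpos.ne'
          simpa using hact j (by omega) g

/-- **Constituents (D3a), flag form.**  A finite `𝔽_r[G]`-module on which all operators
`(g - 1)(g - χ(g))` are nilpotent has a `G`-stable full flag whose graded pieces are lines of type
`𝟙` or `χ`. -/
theorem exists_flag [Finite V] (ρ : Representation (ZMod r) G V) (χ : G →* (ZMod r)ˣ)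
    (h : ∀ g : G, IsNilpotent (eisOp ρ χ g)) : HasFlagFrom ρ χ ⊥ :=
  hasFlagFrom_of_stable ρ χ h ⊥ fun _ => bot_le

end Flag

end Fermat.Agent.S15.H62
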