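import Fermat.Agent.S15.Core.Top
import Fermat.Agent.A2.H528.FrickeGalois
import Fermat.Agent.Lib.FF398.Hecke

/-!
# Row S15, node CUSP, piece CU-1 (helper62): the cusp `0`

Against the frozen interface `Fermat.Agent.S15.Core` (`cuspInfty`, `jBar`, `IsCuspZero`,
`IsDiffClass`), at any level `N > 1`:

* `ord_cuspInfty`          : `ord_∞ f = ord_q f` (the `q`-adic order is already normalised);
* `cuspZero N`             : `P₀ := w_N • ∞`, `w_N` the Fricke involution (A2/H528, on main);
* `ord_cuspZero`           : `ord_{P₀} f = ord_q (w_N f)`;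
* `ord_cuspZero_jBar`      : `ord_{P₀} j = -N`;   `ord_cuspInfty_jBar : ord_∞ j = -1`;
* `ord_cuspZero_jLevel`    : `ord_{P₀} j(q^N) = -1`;  `ord_cuspInfty_jLevel : ord_∞ j(q^N) = -N`;
* `isCuspZero_cuspZero`    : `IsCuspZero N (cuspZero N)` for `1 < N`;
* `galois_smul_cuspZero`   : `P₀` is fixed by the arithmetic Galois action;
* `cuspClass N`            : the class `c = [(P₀) - (∞)]`, `isDiffClass_cuspClass`,
  `galois_smul_cuspClass` (it is rational), `wSemi_smul_cuspClass` (`w c = -c`);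
* `exists_cuspZero`        : the summary in the shape consumed by `Core.CuspStatement`.
-/

set_option autoImplicit false

noncomputable section

open AlgebraicCurve ModularCurve HahnSeries

namespace Fermat.Agent.S15.H62

open Fermat.Agent.S24 Fermat.Agent.S24.H997 Fermat.Agent.A2.H528 Fermat.Agent.S15.Core

variable (N : ℕ) [NeZero N]

/-! ### The order at `∞` -/

theorem induces_cuspInfty :
    Fermat.Agent.S24.H144.Induces
      (Fermat.Agent.S17.H680.inclLaurent (L := Kbar) (modularFunctionFieldFull N))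
      (cuspInfty N) :=
  fun _ => Iff.rfl

theorem order_coeffEmb_jq_eq : (coeffEmb Kbar jq).order = -1 := by
  have h1 : (coeffEmb Kbar jq).coeff (-1) = 1 := by
    rw [coeffEmb_coeff, coeff_jq_neg_one, map_one]
  have h0 : coeffEmb Kbar jq ≠ 0 := fun h => by
    rw [h] at h1
    simp at h1
  refine le_antisymm (HahnSeries.order_le_of_coeff_ne_zero ?_) ?_
  · rw [h1]; exact one_ne_zero
  · by_contra hlt
    rw [not_le] at hlt
    apply h0
    rw [← HahnSeries.coeff_order_eq_zero, coeffEmb_coeff, coeff_jq_of_lt (by omega), map_zero]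

@[simp] theorem coe_jBar : ((jBar N : FF N) : LaurentSeries Kbar) = coeffEmb Kbar jq := rfl

/-- **C1.** The order at the cusp `∞` is the `q`-adic order. -/
theorem ord_cuspInfty (f : FF N) :
    (cuspInfty N).ord f = (f : LaurentSeries Kbar).order := by
  obtain ⟨g, hg, h⟩ := Fermat.Agent.S24.H144.loc_exists_mult (cuspInfty N) _ (induces_cuspInfty N)
  have hj := h (jBar N)
  rw [Fermat.Agent.S17.H680.inclLaurent_apply, coe_jBar, order_coeffEmb_jq_eq] at hj
  have hg1 : g = 1 := by
    have hdvd : (g : ℤ) ∣ 1 := ⟨-(cuspInfty N).ord (jBar N), by linarith⟩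
    have := Int.eq_one_of_dvd_one (by positivity) hdvd
    exact_mod_cast this
  have := h f
  rw [hg1, Nat.cast_one, one_mul, Fermat.Agent.S17.H680.inclLaurent_apply] at this
  exact this.symm

theorem ord_cuspInfty_jBar : (cuspInfty N).ord (jBar N) = -1 := by
  rw [ord_cuspInfty, coe_jBar, order_coeffEmb_jq_eq]

/-! ### `j(q^d)` -/

theorem jBar_eq_jFd : jBar N = jFd N 1 (one_dvd N) := by
  apply Subtype.ext
  rw [coe_jBar, coe_jFd, qExpand_one_apply]

/-- The function `j(q^N)` of `ℚ̄(X₀(N))`. -/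
def jLevel : FF N := jFd N N dvd_rfl

theorem wF_jBar : wF N (jBar N) = jLevel N := by
  have := neZero_div N (one_dvd N)
  rw [jBar_eq_jFd, wF_jFd]
  exact jFd_congr' N (Nat.div_one N)
where
  jFd_congr' (N : ℕ) [NeZero N] {d : ℕ} [NeZero d] {hd : d ∣ N} (h : d = N) :
      jFd N d hd = jFd N N dvd_rfl := by
    subst h
    rfl

theorem wF_jLevel : wF N (jLevel N) = jBar N := by
  rw [← wF_jBar, wF_wF]

omit [NeZero N] in
theorem order_jFd (d : ℕ) [NeZero d] (hd : d ∣ N) :
    ((jFd N d hd : FF N) : LaurentSeries Kbar).order = -(d : ℤ) := by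
  rw [coe_jFd]
  have hd0 : 0 < (d : ℤ) := by exact_mod_cast Nat.pos_of_ne_zero (NeZero.ne d)
  have hcoeff : (coeffEmb Kbar (qExpand ℚ d jq)).coeff (-(d : ℤ)) = 1 := by
    rw [coeffEmb_coeff, show (-(d : ℤ)) = (d : ℤ) * (-1) by ring, qExpand_coeff_mul,
      coeff_jq_neg_one, map_one]
  have h0 : coeffEmb Kbar (qExpand ℚ d jq) ≠ 0 := fun h => by
    rw [h] at hcoeff
    simp at hcoeff
  refine le_antisymm (HahnSeries.order_le_of_coeff_ne_zero ?_) ?_
  · rw [hcoeff]; exact one_ne_zero
  · by_contra hlt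
    rw [not_le] at hlt
    apply h0
    rw [← HahnSeries.coeff_order_eq_zero, coeffEmb_coeff]
    set k := (coeffEmb Kbar (qExpand ℚ d jq)).order with hk
    by_cases hdk : (d : ℤ) ∣ k
    · obtain ⟨m, hm⟩ := hdk
      rw [hm, qExpand_coeff_mul]
      have hm1 : m < -1 := by
        have : (d : ℤ) * m < (d : ℤ) * (-1) := by rw [← hm]; linarith
        exact lt_of_mul_lt_mul_left this hd0.le
      rw [coeff_jq_of_lt hm1, map_zero]
    · rw [qExpand_coeff_of_not_dvd d _ hdk, map_zero]

theorem ord_cuspInfty_jLevel : (cuspInfty N).ord (jLevel N) = -(N : ℤ) := by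
  rw [ord_cuspInfty]
  exact order_jFd N N dvd_rfl

/-! ### The cusp `0` -/

/-- **The cusp `0`** of `X₀(N)`: the image of `∞` under the Fricke involution. -/
def cuspZero : Place Kbar (FF N) := wSemi N • cuspInfty N

theorem wSemi_smul_cuspZero : wSemi N • cuspZero N = cuspInfty N := by
  rw [cuspZero, ← mul_smul, wSemi_mul_self, one_smul]

/-- The order at the cusp `0` is the `q`-adic order of the Fricke transform. -/
theorem ord_cuspZero (f : FF N) :
    (cuspZero N).ord f = ((wF N f : FF N) : LaurentSeries Kbar).order := by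
  have h := SemilinearAut.ord_smul (wSemi N) (cuspInfty N) (wF N f)
  rw [wSemi_smul, wF_wF] at h
  rw [cuspZero, h, ord_cuspInfty]

/-- The cusp `0` has width `N`. -/
theorem ord_cuspZero_jBar : (cuspZero N).ord (jBar N) = -(N : ℤ) := by
  rw [ord_cuspZero, wF_jBar]
  exact order_jFd N N dvd_rfl

theorem ord_cuspZero_jLevel : (cuspZero N).ord (jLevel N) = -1 := by
  rw [ord_cuspZero, wF_jLevel, coe_jBar, order_coeffEmb_jq_eq]

theorem cuspZero_ne_cuspInfty (hN : 1 < N) : cuspZero N ≠ cuspInfty N := by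
  intro h
  have h1 := ord_cuspZero_jBar N
  rw [h, ord_cuspInfty_jBar] at h1
  have : (N : ℤ) = 1 := by linarith
  have : N = 1 := by exact_mod_cast this
  omega

/-- **CU-1.** `P₀ = w_N(∞)` is a cusp `0` in the sense of the frozen interface. -/
theorem isCuspZero_cuspZero (hN : 1 < N) : IsCuspZero N (cuspZero N) := by
  refine ⟨cuspZero_ne_cuspInfty N hN, ?_⟩
  rw [ord_cuspZero_jBar]
  have : 0 < (N : ℤ) := by exact_mod_cast Nat.pos_of_ne_zero (NeZero.ne N)
  linarith

theorem deg_cuspZero : (cuspZero N).deg = (cuspInfty N).deg :=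
  SemilinearAut.deg_smul (wSemi N) (cuspInfty N)

theorem deg_cuspInfty_eq_one : (cuspInfty N).deg = 1 :=
  Fermat.Agent.Lib.FF398.deg_eq_one_FF N _

theorem deg_cuspZero_eq_one : (cuspZero N).deg = 1 :=
  Fermat.Agent.Lib.FF398.deg_eq_one_FF N _

/-- The cusp `0` is fixed by the arithmetic Galois action. -/
theorem galois_smul_cuspZero (σ : Kbar ≃ₐ[ℚ] Kbar) :
    arithmeticGalois (modularFunctionFieldFull N) σ • cuspZero N = cuspZero N := by
  rw [cuspZero, ← mul_smul, ← wSemi_comm, mul_smul,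
    Fermat.Agent.S17.H680.JZero.galois_smul_cusp]

/-! ### The cuspidal class -/

theorem cuspDivisor_mem_degZero :
    (Finsupp.single (cuspZero N) (1 : ℤ) - Finsupp.single (cuspInfty N) (1 : ℤ) :
      Divisor Kbar (FF N)) ∈ Divisor.degZero (K := Kbar) (F := FF N) := by
  rw [Divisor.mem_degZero, map_sub, Divisor.degree_single, Divisor.degree_single, deg_cuspZero,
    sub_self]

/-- The divisor `(0) - (∞)`. -/
def cuspDivisor : Divisor.degZero (K := Kbar) (F := FF N) :=
  ⟨Finsupp.single (cuspZero N) (1 : ℤ) - Finsupp.single (cuspInfty N) (1 : ℤ),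
    cuspDivisor_mem_degZero N⟩

/-- **The cuspidal class** `c = [(0) - (∞)] ∈ J₀(N)`. -/
def cuspClass : JZero N := Pic0.mk (cuspDivisor N)

theorem isDiffClass_cuspClass : IsDiffClass (cuspZero N) (cuspInfty N) (cuspClass N) :=
  ⟨cuspDivisor_mem_degZero N, rfl⟩

/-- Any class of `(P₀) - (∞)` in the sense of the interface is `cuspClass`. -/
theorem eq_cuspClass_of_isDiffClass {z : JZero N}
    (h : IsDiffClass (cuspZero N) (cuspInfty N) z) : z = cuspClass N := by
  obtain ⟨_, rfl⟩ := h
  rfl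

/-- The cuspidal class is rational. -/
theorem galois_smul_cuspClass (σ : Kbar ≃ₐ[ℚ] Kbar) : σ • cuspClass N = cuspClass N := by
  rw [galois_smul_pic0_def, cuspClass, SemilinearAut.pic0_smul_mk]
  refine congrArg Pic0.mk (Subtype.ext ?_)
  rw [SemilinearAut.coe_degZeroSMulHom]
  show arithmeticGalois (modularFunctionFieldFull N) σ •
    (Finsupp.single (cuspZero N) (1 : ℤ) - Finsupp.single (cuspInfty N) (1 : ℤ)) = _
  rw [smul_sub, SemilinearAut.smul_single, SemilinearAut.smul_single, galois_smul_cuspZero,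
    Fermat.Agent.S17.H680.JZero.galois_smul_cusp]
  rfl

/-- The Fricke involution acts by `-1` on the cuspidal class. -/
theorem wSemi_smul_cuspClass : wSemi N • cuspClass N = -cuspClass N := by
  rw [cuspClass, SemilinearAut.pic0_smul_mk]
  have hneg : -cuspDivisor N = SemilinearAut.degZeroSMulHom (wSemi N) (cuspDivisor N) := by
    apply Subtype.ext
    rw [SemilinearAut.coe_degZeroSMulHom]
    show -(Finsupp.single (cuspZero N) (1 : ℤ) - Finsupp.single (cuspInfty N) (1 : ℤ)) =
      wSemi N • (Finsupp.single (cuspZero N) (1 : ℤ) - Finsupp.single (cuspInfty N) (1 : ℤ))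
    rw [smul_sub, SemilinearAut.smul_single, SemilinearAut.smul_single, wSemi_smul_cuspZero,
      neg_sub]
    rfl
  rw [← hneg]
  rfl

/-- **CU-1, summary** (shape consumed by `Core.CuspStatement` / `Core.GeoStatement`). -/
theorem exists_cuspZero (hN : 1 < N) :
    ∃ (P₀ : Place Kbar (FF N)) (c : JZero N),
      IsCuspZero N P₀ ∧ IsDiffClass P₀ (cuspInfty N) c ∧
      P₀.ord (jBar N) = -(N : ℤ) ∧ P₀.deg = 1 ∧
      (∀ σ : Kbar ≃ₐ[ℚ] Kbar, arithmeticGalois (modularFunctionFieldFull N) σ • P₀ = P₀) ∧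
      (∀ σ : Kbar ≃ₐ[ℚ] Kbar, σ • c = c) :=
  ⟨cuspZero N, cuspClass N, isCuspZero_cuspZero N hN, isDiffClass_cuspClass N,
    ord_cuspZero_jBar N, deg_cuspZero_eq_one N, galois_smul_cuspZero N, galois_smul_cuspClass N⟩

end Fermat.Agent.S15.H62
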