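import Fermat.Agent.S15.H62.Constituents
import Fermat.Agent.Lib.Cheb.Spec

/-!
# S15 / DESC piece D3b (helper62): Eichler–Shimura + Frobenius density ⟹ Eisenstein constituents

Abstract glue.  Let `W` be a finite `𝔽_r`-module with an action `ρ` of `G_ℚ` factoring through a
finite extension `E`, and commuting operators `T ℓ` ("Hecke operators") such that for `ℓ ∉ S`

* `T ℓ - (1 + ℓ)` is nilpotent on `W`  (`W` is supported at the Eisenstein prime `(I, r)`),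
* every Frobenius `τ` at `ℓ` satisfies `τ² - T_ℓ τ + ℓ = 0` on `W`  (Eichler–Shimura, row S37),
* `χ(τ) = ℓ`  (`χ` = mod `r` cyclotomic character).

Then, by the Frobenius density theorem (`Lib.Cheb`, Tier 1, on main), for **every** `σ ∈ G_ℚ` the
operator `(σ - 1)(σ - χ(σ))` is nilpotent on `W`; hence (`Constituents.exists_flag`) `W` has a
`G_ℚ`-stable full flag with graded pieces `ℤ/r` and `μ_r`.
-/

set_option autoImplicit false

namespace Fermat.Agent.S15.H62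

open Fermat.Agent.Lib.Cheb.Spec

section Algebra

variable {R : Type*} [Ring R]

/-- `Y` commutes with `∑ X^i C^(n-1-i)` if it commutes with `X` and `C`. -/
theorem commute_geom_sum₂ {Y X C : R} (hX : Commute Y X) (hC : Commute Y C) (n : ℕ) :
    Commute Y (∑ i ∈ Finset.range n, X ^ i * C ^ (n - 1 - i)) :=
  Commute.sum_right _ _ _ fun i _ => (hX.pow_right i).mul_right (hC.pow_right _)

/-- `Y` commutes with `∑ X^i` if it commutes with `X`. -/
theorem commute_geom_sum {Y X : R} (hX : Commute Y X) (n : ℕ) :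
    Commute Y (∑ i ∈ Finset.range n, X ^ i) :=
  Commute.sum_right _ _ _ fun i _ => hX.pow_right i

/-- Algebraic core: if `X² - ((1 + C) + ν) X + C = 0` with `C` central and `ν` nilpotent
commuting with `X`, then `(X^j - 1)(X^j - C^j)` is nilpotent for every `j`. -/
theorem isNilpotent_pow_sub_one_mul {X ν C : R} (hC : ∀ Y : R, Commute Y C)
    (hνX : Commute ν X) (hν : IsNilpotent ν)
    (hrel : X * X - ((1 + C) + ν) * X + C = 0) (j : ℕ) :
    IsNilpotent ((X ^ j - 1) * (X ^ j - C ^ j)) := by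
  have h1 : (X - 1) * (X - C) = ν * X := by
    have e1 : (X - 1) * (X - C) = X * X - ((1 + C) + ν) * X + C + ν * X := by
      have hXC : X * C = C * X := (hC X).eq
      simp only [sub_mul, mul_sub, add_mul, one_mul, hXC]
      abel
    rw [e1, hrel, zero_add]
  set P := ∑ i ∈ Finset.range j, X ^ i with hP
  set Q := ∑ i ∈ Finset.range j, X ^ i * C ^ (j - 1 - i) with hQ
  have hXj1 : X ^ j - 1 = (X - 1) * P := (mul_geom_sum X j).symm
  have hXjC : X ^ j - C ^ j = (X - C) * Q := ((hC X).mul_geom_sum₂ j).symm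
  have hXX : Commute X X := Commute.refl X
  have hPXC : Commute P (X - C) :=
    ((commute_geom_sum hXX j).symm).sub_right ((hC P))
  have e : (X ^ j - 1) * (X ^ j - C ^ j) = (ν * X) * (P * Q) := by
    rw [hXj1, hXjC, ← h1]
    calc (X - 1) * P * ((X - C) * Q) = (X - 1) * (P * (X - C)) * Q := by noncomm_ring
      _ = (X - 1) * ((X - C) * P) * Q := by rw [hPXC.eq]
      _ = (X - 1) * (X - C) * (P * Q) := by noncomm_ring
  rw [e]
  have hνXnil : IsNilpotent (ν * X) := hνX.isNilpotent_mul_right hν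
  have hcomm : Commute (ν * X) (P * Q) := by
    have hνP : Commute ν P := commute_geom_sum hνX j
    have hνQ : Commute ν Q := commute_geom_sum₂ hνX (hC ν) j
    have hXP : Commute X P := commute_geom_sum hXX j
    have hXQ : Commute X Q := commute_geom_sum₂ hXX (hC X) j
    exact (hνP.mul_right hνQ).mul_left (hXP.mul_right hXQ)
  exact hcomm.isNilpotent_mul_right hνXnil

end Algebra

section Galois

variable {r : ℕ} [Fact r.Prime] {W : Type*} [AddCommGroup W] [Module (ZMod r) W]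

/-- **D3b.**  Eichler–Shimura relations at Frobenius elements + Frobenius density theorem ⟹ for
every `σ ∈ G_ℚ` the operator `(σ - 1)(σ - χ(σ))` is nilpotent on `W`. -/
theorem isNilpotent_eisOp_of_frobenius
    (ρ : Representation (ZMod r) GQ W) (χ : GQ →* (ZMod r)ˣ)
    (E : IntermediateField ℚ Qb) (hE : FiniteDimensional ℚ E)
    (hρE : ∀ σ τ : GQ, (∀ x ∈ E, σ x = τ x) → ρ σ = ρ τ)
    (hχE : ∀ σ τ : GQ, (∀ x ∈ E, σ x = τ x) → χ σ = χ τ)
    (S : Finset ℕ) (T : ℕ → Module.End (ZMod r) W)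
    (hTcomm : ∀ ℓ : ℕ, ℓ.Prime → ℓ ∉ S → ∀ σ : GQ, Commute (T ℓ) (ρ σ))
    (hTnil : ∀ ℓ : ℕ, ℓ.Prime → ℓ ∉ S →
      IsNilpotent (T ℓ - (1 + algebraMap (ZMod r) (Module.End (ZMod r) W) (ℓ : ZMod r))))
    (hES : ∀ ℓ : ℕ, ℓ.Prime → ℓ ∉ S → ∀ A : ValuationSubring Qb, A.LiesOverPrime ℓ →
      ∀ τ : GQ, A.IsFrobeniusAt τ ℓ →
        ρ τ * ρ τ - T ℓ * ρ τ + algebraMap (ZMod r) (Module.End (ZMod r) W) (ℓ : ZMod r) = 0)
    (hχF : ∀ ℓ : ℕ, ℓ.Prime → ℓ ∉ S → ∀ A : ValuationSubring Qb, A.LiesOverPrime ℓ →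
      ∀ τ : GQ, A.IsFrobeniusAt τ ℓ → ((χ τ : (ZMod r)ˣ) : ZMod r) = (ℓ : ZMod r))
    (hcheb : FrobeniusDivisionStatement) (σ : GQ) :
    IsNilpotent (eisOp ρ χ σ) := by
  obtain ⟨ℓ, A, τ, k, j, hℓ, hℓS, hA, hτ, -, -, hj⟩ := hcheb E hE σ S
  have hρ : ρ σ = ρ τ ^ j := by
    rw [← map_pow]
    exact hρE σ (τ ^ j) fun x hx => (hj x hx).symm
  have hχ : χ σ = χ τ ^ j := by
    rw [← map_pow]
    exact hχE σ (τ ^ j) fun x hx => (hj x hx).symm
  set C : Module.End (ZMod r) W := algebraMap (ZMod r) (Module.End (ZMod r) W) (ℓ : ZMod r)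
    with hCdef
  have hC : ∀ Y : Module.End (ZMod r) W, Commute Y C := fun Y =>
    (Algebra.commutes (ℓ : ZMod r) Y).symm
  have hrel : ρ τ * ρ τ - ((1 + C) + (T ℓ - (1 + C))) * ρ τ + C = 0 := by
    rw [add_sub_cancel]
    exact hES ℓ hℓ hℓS A hA τ hτ
  have hνX : Commute (T ℓ - (1 + C)) (ρ τ) :=
    (hTcomm ℓ hℓ hℓS τ).sub_left (((Commute.one_left _).add_left (hC (ρ τ)).symm))
  have := isNilpotent_pow_sub_one_mul hC hνX (hTnil ℓ hℓ hℓS) hrel j
  have hval : algebraMap (ZMod r) (Module.End (ZMod r) W) ((χ σ : (ZMod r)ˣ) : ZMod r) = C ^ j := by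
    rw [hχ, Units.val_pow_eq_pow_val, map_pow, hχF ℓ hℓ hℓS A hA τ hτ]
  rw [eisOp, hρ, hval]
  exact this

/-- **D3 (abstract form).**  Under the hypotheses of `isNilpotent_eisOp_of_frobenius`, the finite
Galois module `W` has a `G_ℚ`-stable full flag with graded pieces of type `𝟙` (`ℤ/r`) or `χ`
(`μ_r`). -/
theorem exists_flag_of_frobenius [Finite W]
    (ρ : Representation (ZMod r) GQ W) (χ : GQ →* (ZMod r)ˣ)
    (E : IntermediateField ℚ Qb) (hE : FiniteDimensional ℚ E)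
    (hρE : ∀ σ τ : GQ, (∀ x ∈ E, σ x = τ x) → ρ σ = ρ τ)
    (hχE : ∀ σ τ : GQ, (∀ x ∈ E, σ x = τ x) → χ σ = χ τ)
    (S : Finset ℕ) (T : ℕ → Module.End (ZMod r) W)
    (hTcomm : ∀ ℓ : ℕ, ℓ.Prime → ℓ ∉ S → ∀ σ : GQ, Commute (T ℓ) (ρ σ))
    (hTnil : ∀ ℓ : ℕ, ℓ.Prime → ℓ ∉ S →
      IsNilpotent (T ℓ - (1 + algebraMap (ZMod r) (Module.End (ZMod r) W) (ℓ : ZMod r))))
    (hES : ∀ ℓ : ℕ, ℓ.Prime → ℓ ∉ S → ∀ A : ValuationSubring Qb, A.LiesOverPrime ℓ →
      ∀ τ : GQ, A.IsFrobeniusAt τ ℓ →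
        ρ τ * ρ τ - T ℓ * ρ τ + algebraMap (ZMod r) (Module.End (ZMod r) W) (ℓ : ZMod r) = 0)
    (hχF : ∀ ℓ : ℕ, ℓ.Prime → ℓ ∉ S → ∀ A : ValuationSubring Qb, A.LiesOverPrime ℓ →
      ∀ τ : GQ, A.IsFrobeniusAt τ ℓ → ((χ τ : (ZMod r)ˣ) : ZMod r) = (ℓ : ZMod r))
    (hcheb : FrobeniusDivisionStatement) :
    HasFlagFrom ρ χ ⊥ :=
  exists_flag ρ χ fun σ =>
    isNilpotent_eisOp_of_frobenius ρ χ E hE hρE hχE S T hTcomm hTnil hES hχF hcheb σ

end Galois

end Fermat.Agent.S15.H62
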