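import Fermat.Statements.S15
import Fermat.Prelude.Def_ModularCurve_ReductionModL
import Fermat.Prelude.Def_ModularCurve_HeckeModule

/-!
# S15 (Mazur's "Step 3"): concrete top-level reduction  (helper62)

The frozen statement S15 is deduced, in the language of the Prelude (`JZero p`, `reductionModL`,
`heckeModuleBar`), from seven interface statements.  Everything here is sorry-free; the interface
statements are `def ... : Prop`.

Notation: `p` = order of the rational point `Q` = level; `J = JZero p = Pic⁰(ℚ̄(X₀(p)))`;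
`c ∈ J` the cuspidal class `(0) - (∞)`; `D ∈ J` the class `(x) - (0)`, `x = (E, ⟨Q⟩) ∈ X₀(p)(ℚ)`.

* `S18Statement p`   : body of the frozen S18 at level `p`;
* `RimStatement p`   : `ReductionInputsModL A p` for every `A` over a prime `ℓ ≠ p`  (rows S18/S37);
* `HeqStatement p`   : the kernel of `reductionModL A p` is stable under the Hecke algebra;
* `WallStatement p c`: **the wall** (Eisenstein descent): some `t : HeckeAlg` kills `J(ℚ)` up to
  torsion and does not kill `c`;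
* `CuspStatement p c`: `(p - 1) • c = 0`  (modular unit `Δ(z)/Δ(pz)`);
* `DictStatement p c`: cusp dictionary: for `(W, Q)` there is a Galois-fixed `D` with
  `red_A D = 0` if `Q ∉ E⁰` at `A`, and `red_A (D + c) = 0` if `Q ∈ E⁰` at `A`
  (`A` over a prime of multiplicative reduction `≠ p`);
* `LocStatement p`   : local lemma: if `Q ∈ E⁰` at a multiplicative prime `ℓ ≠ p` then
  `p ∣ ℓ - 1` or `p ∣ ℓ + 1`  (`E⁰(ℚ_ℓ)[p] ↪ E_ns(𝔽_ℓ)`).

Only S18 at `2`, `3` and at primes `ℓ ≡ ±1 mod p` is used, and only for torsion of order prime to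
`2`, resp. `3`, resp. dividing `p - 1` (prime to `ℓ`): no Raynaud / finite flat input is needed at
this level.
-/

set_option autoImplicit false
open WeierstrassCurve WeierstrassCurve.Affine
open WeierstrassCurve

namespace Fermat.Agent.S15.H62

open ModularCurve AlgebraicCurve

set_option synthInstance.maxHeartbeats 400000

/-- The absolute Galois group of `ℚ`. -/
abbrev GalQ : Type := AlgebraicClosure ℚ ≃ₐ[ℚ] AlgebraicClosure ℚ

/-- Body of the frozen statement S18 at level `N`. -/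
def S18Statement (N : ℕ) [NeZero N] : Prop :=
  ∀ {ℓ : ℕ} [Fact ℓ.Prime], ¬ ℓ ∣ N →
    ∀ A : ValuationSubring (AlgebraicClosure ℚ), A.LiesOverPrime ℓ →
      ModularCurve.ReductionInputsModL A N → ∀ m : ℕ, ¬ ℓ ∣ m → ∀ z : ModularCurve.JZero N,
        m • z = 0 → ModularCurve.reductionModL A N z = 0 → z = 0

/-- Existence of the reduction of places modulo every prime not dividing the level. -/
def RimStatement (N : ℕ) : Prop :=
  ∀ ℓ : ℕ, ℓ.Prime → ¬ ℓ ∣ N →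
    ∀ A : ValuationSubring (AlgebraicClosure ℚ), A.LiesOverPrime ℓ →
      ModularCurve.ReductionInputsModL A N

/-- The kernel of reduction is stable under the Hecke algebra. -/
def HeqStatement (N : ℕ) [NeZero N] : Prop :=
  letI := heckeModuleBar N
  ∀ ℓ : ℕ, ℓ.Prime → ¬ ℓ ∣ N →
    ∀ A : ValuationSubring (AlgebraicClosure ℚ), A.LiesOverPrime ℓ →
      ∀ (t : HeckeAlg) (z : JZero N),
        ModularCurve.reductionModL A N z = 0 → ModularCurve.reductionModL A N (t • z) = 0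

/-- **The wall** (finiteness of the Mordell–Weil group of an Eisenstein quotient, in elementary
form): a Hecke operator which kills the rational points of `J₀(p)` up to torsion but not the
cuspidal class `c`. -/
def WallStatement (p : ℕ) [NeZero p] (c : JZero p) : Prop :=
  letI := heckeModuleBar p
  ∃ t : HeckeAlg,
    (∀ z : JZero p, (∀ σ : GalQ, σ • z = z) → ∃ m : ℕ, 0 < m ∧ m • (t • z) = 0) ∧ t • c ≠ 0

/-- The cuspidal class is killed by `p - 1`. -/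
def CuspStatement (p : ℕ) (c : JZero p) : Prop :=
  (p - 1) • c = 0

/-- Cusp dictionary for the moduli point `(E, ⟨Q⟩)` of `X₀(p)`. -/
def DictStatement (p : ℕ) (c : JZero p) : Prop :=
  ∀ (W : WeierstrassCurve ℤ), W.Δ ≠ 0 →
    ∀ Q : ((W.map (Int.castRingHom ℚ))⁄(AlgebraicClosure ℚ)).Point,
      (∀ σ : GalQ, σ • Q = Q) → addOrderOf Q = p →
      ∃ D : JZero p, (∀ σ : GalQ, σ • D = D) ∧
        ∀ ℓ : ℕ, ℓ.Prime → ℓ ≠ p → (ℓ : ℤ) ∣ W.Δ → ¬ (ℓ : ℤ) ∣ W.c₄ →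
          ∀ A : ValuationSubring (AlgebraicClosure ℚ), A.LiesOverPrime ℓ →
            (¬ W.InZeroComponentAt A Q → ModularCurve.reductionModL A p D = 0) ∧
            (W.InZeroComponentAt A Q → ModularCurve.reductionModL A p (D + c) = 0)

/-- Local lemma at a prime of multiplicative reduction. -/
def LocStatement (p : ℕ) : Prop :=
  ∀ (W : WeierstrassCurve ℤ), W.Δ ≠ 0 →
    ∀ Q : ((W.map (Int.castRingHom ℚ))⁄(AlgebraicClosure ℚ)).Point,
      (∀ σ : GalQ, σ • Q = Q) → addOrderOf Q = p →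
      ∀ ℓ : ℕ, ℓ.Prime → ℓ ≠ p → (ℓ : ℤ) ∣ W.Δ → ¬ (ℓ : ℤ) ∣ W.c₄ →
        ∀ A : ValuationSubring (AlgebraicClosure ℚ), A.LiesOverPrime ℓ →
          W.InZeroComponentAt A Q → (p ∣ ℓ - 1 ∨ p ∣ ℓ + 1)

/-- There is a valuation subring of `ℚ̄` over every prime number. -/
theorem exists_liesOverPrime (ℓ : ℕ) (hℓ : ℓ.Prime) :
    ∃ A : ValuationSubring (AlgebraicClosure ℚ), A.LiesOverPrime ℓ := by
  let A₀ : Subring (AlgebraicClosure ℚ) := (algebraMap ℤ (AlgebraicClosure ℚ)).range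
  let l₀ : A₀ := ⟨(ℓ : AlgebraicClosure ℚ), ⟨(ℓ : ℤ), by simp⟩⟩
  have hI : Ideal.span {l₀} ≠ ⊤ := by
    intro h
    rw [Ideal.span_singleton_eq_top] at h
    obtain ⟨⟨m, n, rfl⟩, hm⟩ := h.exists_right_inv
    have h1 : ((ℓ : ℤ) : AlgebraicClosure ℚ) * ((n : ℤ) : AlgebraicClosure ℚ) = 1 := by
      have := congrArg Subtype.val hm
      simpa [l₀] using this
    have h2 : (ℓ : ℤ) * n = 1 := by exact_mod_cast h1
    have h3 : (ℓ : ℤ) ∣ 1 := ⟨n, h2.symm⟩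
    have h4 : ℓ ∣ 1 := by exact_mod_cast h3
    exact hℓ.one_lt.ne' (Nat.dvd_one.mp h4)
  obtain ⟨A, -, hA⟩ := Ideal.image_subset_nonunits_valuationSubring _ hI
  refine ⟨A, ?_⟩
  apply hA
  exact ⟨l₀, Ideal.subset_span rfl, rfl⟩

/-- A torsion element which reduces to `0` modulo two different primes (reduction being injective
on torsion prime to the characteristic) is zero. -/
theorem eq_zero_of_torsion_of_two_primes {M J₁ J₂ : Type*} [AddCommGroup M] [AddCommGroup J₁]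
    [AddCommGroup J₂] (red₁ : M →+ J₁) (red₂ : M →+ J₂) {q₁ q₂ : ℕ} (hq₁ : q₁.Prime)
    (hq₂ : q₂.Prime) (hne : q₁ ≠ q₂)
    (inj₁ : ∀ (m : ℕ) (z : M), ¬ q₁ ∣ m → m • z = 0 → red₁ z = 0 → z = 0)
    (inj₂ : ∀ (m : ℕ) (z : M), ¬ q₂ ∣ m → m • z = 0 → red₂ z = 0 → z = 0)
    {z : M} {m : ℕ} (hm : 0 < m) (hmz : m • z = 0) (h₁ : red₁ z = 0) (h₂ : red₂ z = 0) :
    z = 0 := by
  obtain ⟨a, m₁, hm₁, rfl⟩ := Nat.exists_eq_pow_mul_and_not_dvd hm.ne' q₁ hq₁.ne_one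
  have hz₁ : q₁ ^ a • z = 0 := by
    refine inj₁ m₁ (q₁ ^ a • z) hm₁ ?_ ?_
    · rw [← mul_smul, mul_comm]; exact hmz
    · rw [map_nsmul, h₁, smul_zero]
  refine inj₂ (q₁ ^ a) z ?_ hz₁ h₂
  intro hdvd
  have := (Nat.prime_dvd_prime_iff_eq hq₂ hq₁).mp (hq₂.dvd_of_dvd_pow hdvd)
  exact hne this.symm

/-- Arithmetic: a prime `ℓ` with `p ∣ ℓ ± 1`, `p ≥ 5` prime, does not divide `p - 1`. -/
theorem not_dvd_pred_of_dvd {p ℓ : ℕ} (hp : p.Prime) (hp5 : 5 ≤ p) (hℓ : ℓ.Prime)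
    (h : p ∣ ℓ - 1 ∨ p ∣ ℓ + 1) : ¬ ℓ ∣ p - 1 := by
  have hℓ2 := hℓ.two_le
  intro hdvd
  have hle : ℓ ≤ p - 1 := Nat.le_of_dvd (by omega) hdvd
  rcases h with h | h
  · have h1 : 0 < ℓ - 1 := by omega
    have := Nat.le_of_dvd h1 h
    omega
  · have hge := Nat.le_of_dvd (by omega) h
    have heq : p = ℓ + 1 := by omega
    rcases Nat.even_or_odd ℓ with he | ho
    · have := (Nat.Prime.even_iff hℓ).mp he
      omega
    · have hpe : Even p := by rw [heq]; exact ho.add_one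
      have := (Nat.Prime.even_iff hp).mp hpe
      omega

/-- **S15 from the seven interface statements** (for a fixed prime `p ≥ 5`). -/
theorem result_of_pieces {p : ℕ} (hp : p.Prime) (hp5 : 5 ≤ p) (c : JZero p)
    (hS18 : @S18Statement p ⟨hp.ne_zero⟩) (hRim : RimStatement p)
    (hHeq : @HeqStatement p ⟨hp.ne_zero⟩) (hWall : @WallStatement p ⟨hp.ne_zero⟩ c)
    (hCusp : CuspStatement p c) (hDict : DictStatement p c) (hLoc : LocStatement p)
    (W : WeierstrassCurve ℤ) (hΔ : W.Δ ≠ 0)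
    (Q : ((W.map (Int.castRingHom ℚ))⁄(AlgebraicClosure ℚ)).Point)
    (hQfix : ∀ σ : AlgebraicClosure ℚ ≃ₐ[ℚ] AlgebraicClosure ℚ, σ • Q = Q)
    (hQord : addOrderOf Q = p)
    (h2Δ : (2 : ℤ) ∣ W.Δ) (h2c₄ : ¬ (2 : ℤ) ∣ W.c₄)
    (h2 : ∀ A : ValuationSubring (AlgebraicClosure ℚ), A.LiesOverPrime 2 →
      ¬ W.InZeroComponentAt A Q)
    (h3Δ : (3 : ℤ) ∣ W.Δ) (h3c₄ : ¬ (3 : ℤ) ∣ W.c₄)
    (h3 : ∀ A : ValuationSubring (AlgebraicClosure ℚ), A.LiesOverPrime 3 →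
      ¬ W.InZeroComponentAt A Q)
    {ℓ : ℕ} (hℓ : ℓ.Prime) (hℓp : ℓ ≠ p) (hℓΔ : (ℓ : ℤ) ∣ W.Δ) (hℓc₄ : ¬ (ℓ : ℤ) ∣ W.c₄)
    (A : ValuationSubring (AlgebraicClosure ℚ)) (hA : A.LiesOverPrime ℓ) :
    ¬ W.InZeroComponentAt A Q := by
  haveI : NeZero p := ⟨hp.ne_zero⟩
  letI := heckeModuleBar p
  intro hin
  have hnd : ¬ ℓ ∣ p - 1 :=
    not_dvd_pred_of_dvd hp hp5 hℓ (hLoc W hΔ Q hQfix hQord ℓ hℓ hℓp hℓΔ hℓc₄ A hA hin)
  obtain ⟨t, ht, htc⟩ := hWall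
  obtain ⟨D, hDfix, hD⟩ := hDict W hΔ Q hQfix hQord
  obtain ⟨A₂, hA₂⟩ := exists_liesOverPrime 2 Nat.prime_two
  obtain ⟨A₃, hA₃⟩ := exists_liesOverPrime 3 Nat.prime_three
  have hp2 : (2 : ℕ) ≠ p := by omega
  have hp3 : (3 : ℕ) ≠ p := by omega
  have h2p : ¬ 2 ∣ p := fun h => hp2 ((Nat.prime_dvd_prime_iff_eq Nat.prime_two hp).mp h)
  have h3p : ¬ 3 ∣ p := fun h => hp3 ((Nat.prime_dvd_prime_iff_eq Nat.prime_three hp).mp h)
  have hℓnp : ¬ ℓ ∣ p := fun h => hℓp ((Nat.prime_dvd_prime_iff_eq hℓ hp).mp h)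
  have hD2 : ModularCurve.reductionModL A₂ p D = 0 :=
    (hD 2 Nat.prime_two hp2 (by exact_mod_cast h2Δ) (by exact_mod_cast h2c₄) A₂ hA₂).1 (h2 A₂ hA₂)
  have hD3 : ModularCurve.reductionModL A₃ p D = 0 :=
    (hD 3 Nat.prime_three hp3 (by exact_mod_cast h3Δ) (by exact_mod_cast h3c₄) A₃ hA₃).1 (h3 A₃ hA₃)
  have htD2 : ModularCurve.reductionModL A₂ p (t • D) = 0 :=
    hHeq 2 Nat.prime_two h2p A₂ hA₂ t D hD2
  have htD3 : ModularCurve.reductionModL A₃ p (t • D) = 0 :=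
    hHeq 3 Nat.prime_three h3p A₃ hA₃ t D hD3
  obtain ⟨m, hm, hmD⟩ := ht D hDfix
  have htD : t • D = 0 :=
    eq_zero_of_torsion_of_two_primes (ModularCurve.reductionModL A₂ p)
      (ModularCurve.reductionModL A₃ p) Nat.prime_two Nat.prime_three (by norm_num)
      (fun m z hm hz hr =>
        @hS18 2 ⟨Nat.prime_two⟩ h2p A₂ hA₂ (hRim 2 Nat.prime_two h2p A₂ hA₂) m hm z hz hr)
      (fun m z hm hz hr =>
        @hS18 3 ⟨Nat.prime_three⟩ h3p A₃ hA₃ (hRim 3 Nat.prime_three h3p A₃ hA₃) m hm z hz hr)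
      hm hmD htD2 htD3
  have hDc : ModularCurve.reductionModL A p (D + c) = 0 :=
    (hD ℓ hℓ hℓp hℓΔ hℓc₄ A hA).2 hin
  have h1 : ModularCurve.reductionModL A p (t • (D + c)) = 0 := hHeq ℓ hℓ hℓnp A hA t _ hDc
  rw [smul_add, htD, zero_add] at h1
  have h2' : (p - 1) • (t • c) = 0 := by
    rw [smul_comm, show (p - 1) • c = 0 from hCusp, smul_zero]
  exact htc (@hS18 ℓ ⟨hℓ⟩ hℓnp A hA (hRim ℓ hℓ hℓnp A hA) (p - 1) hnd (t • c) h2' h1)

/-- The frozen statement S15, from the interface statements for all primes `p`. -/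
theorem result_of_statements
    (H : ∀ p : ℕ, (hp : p.Prime) → p ∉ ({2, 3, 5, 7, 13} : Finset ℕ) →
      @S18Statement p ⟨hp.ne_zero⟩ ∧ RimStatement p ∧ @HeqStatement p ⟨hp.ne_zero⟩ ∧
        LocStatement p ∧
        ∃ c : JZero p, @WallStatement p ⟨hp.ne_zero⟩ c ∧ CuspStatement p c ∧ DictStatement p c)
    {p : ℕ} (hp : p.Prime) (hp' : p ∉ ({2, 3, 5, 7, 13} : Finset ℕ))
    (W : WeierstrassCurve ℤ) (hΔ : W.Δ ≠ 0)
    (Q : ((W.map (Int.castRingHom ℚ))⁄(AlgebraicClosure ℚ)).Point)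
    (hQfix : ∀ σ : AlgebraicClosure ℚ ≃ₐ[ℚ] AlgebraicClosure ℚ, σ • Q = Q)
    (hQord : addOrderOf Q = p)
    (h2Δ : (2 : ℤ) ∣ W.Δ) (h2c₄ : ¬ (2 : ℤ) ∣ W.c₄)
    (h2 : ∀ A : ValuationSubring (AlgebraicClosure ℚ), A.LiesOverPrime 2 →
      ¬ W.InZeroComponentAt A Q)
    (h3Δ : (3 : ℤ) ∣ W.Δ) (h3c₄ : ¬ (3 : ℤ) ∣ W.c₄)
    (h3 : ∀ A : ValuationSubring (AlgebraicClosure ℚ), A.LiesOverPrime 3 →
      ¬ W.InZeroComponentAt A Q)
    {ℓ : ℕ} (hℓ : ℓ.Prime) (hℓp : ℓ ≠ p) (hℓΔ : (ℓ : ℤ) ∣ W.Δ) (hℓc₄ : ¬ (ℓ : ℤ) ∣ W.c₄)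
    (A : ValuationSubring (AlgebraicClosure ℚ)) (hA : A.LiesOverPrime ℓ) :
    ¬ W.InZeroComponentAt A Q := by
  obtain ⟨hS18, hRim, hHeq, hLoc, c, hWall, hCusp, hDict⟩ := H p hp hp'
  have hp5 : 5 ≤ p := by
    have h2 := hp.two_le
    simp only [Finset.mem_insert, Finset.mem_singleton, not_or] at hp'
    obtain ⟨h2', h3', -, -, -⟩ := hp'
    rcases Nat.lt_or_ge p 5 with h | h
    · interval_cases p
      · exact absurd rfl h2'
      · exact absurd rfl h3'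
      · exact absurd hp (by decide)
    · exact h
  exact result_of_pieces hp hp5 c hS18 hRim hHeq hWall hCusp hDict hLoc W hΔ Q hQfix hQord
    h2Δ h2c₄ h2 h3Δ h3c₄ h3 hℓ hℓp hℓΔ hℓc₄ A hA

end Fermat.Agent.S15.H62
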